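import Fermat.Agent.S27.D.Defs

/-! # S27 / D2: API for `Base.E`

* `E_apply`: by `injOn` the chosen `τ` is the given one.
* `exists_ball`: `abSum '' W` is open (`isOpen_image`) and contains `abSum c = 0`.
* `E_inj`: if `z = abSum τ`, `τ ∈ V`, and `cls (dv τ - dv c) = 0` then `dv τ ~ dv c`, so `dv τ = dv c`
  (`eq_of_linEq_nonSpecial`, the centre tuple is non-special), so each `pl_i τ_i` is some `pl_j c_j`
  (`exists_eq_of_sum_pt_eq`), `j = i` by `disj`, `τ_i = c_i` by `Chart.pl_injOn`; hence `z = abSum c = 0`. -/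

set_option autoImplicit false

noncomputable section

namespace Fermat.Agent.S27

open AlgebraicCurve Fermat.Agent.S24.FF

variable {F : Type*} [Field F] [Algebra ℂ F] [IsFF1 ℂ F] [NonConst ℂ F]
  {ω : Module.Basis (Fin (genusFF ℂ F)) ℂ (WDiff ℂ F)}

theorem degree_dv {ι : Type} [Fintype ι] (χ : ι → Chart F) (τ : ι → ℂ) :
    Divisor.degree (dv χ τ) = Fintype.card ι := by
  rw [dv, map_sum]
  simp [degree_pt]

theorem continuousOn_ab (χ : Chart F) (ω : Module.Basis (Fin (genusFF ℂ F)) ℂ (WDiff ℂ F)) :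
    ContinuousOn (χ.ab ω) χ.dom := by
  refine continuousOn_pi.2 fun j => ?_
  intro s hs
  exact (χ.hasDerivAt_prim (ω j) hs).continuousAt.continuousWithinAt

theorem ab_c (χ : Chart F) (ω : Module.Basis (Fin (genusFF ℂ F)) ℂ (WDiff ℂ F)) :
    χ.ab ω χ.c = 0 := by
  funext j
  exact χ.prim_c (ω j)

namespace Base

variable (Q : Base ω)

theorem abSum_c : abSum ω Q.χ Q.c = 0 := by
  rw [abSum]
  exact Finset.sum_eq_zero fun i _ => ab_c (Q.χ i) ω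

theorem E_apply {τ : Fin (genusFF ℂ F) → ℂ} (hτ : τ ∈ Q.V) :
    Q.E (abSum ω Q.χ τ) = cls (dv Q.χ τ - dv Q.χ Q.c) := by
  have h : ∃ σ ∈ Q.V, abSum ω Q.χ σ = abSum ω Q.χ τ := ⟨τ, hτ, rfl⟩
  have h1 : h.choose = τ := Q.injOn h.choose_spec.1 hτ h.choose_spec.2
  rw [E, dif_pos h, h1]

theorem E_zero : Q.E 0 = 0 := by
  have h := Q.E_apply Q.c_mem
  have hc : (fun i => (Q.χ i).c) = Q.c := rfl
  rw [hc, abSum_c, sub_self, cls_zero] at h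
  exact h

theorem E_sub {τ τ' : Fin (genusFF ℂ F) → ℂ} (hτ : τ ∈ Q.V) (hτ' : τ' ∈ Q.V) :
    Q.E (abSum ω Q.χ τ') - Q.E (abSum ω Q.χ τ) = cls (dv Q.χ τ' - dv Q.χ τ) := by
  have hd : ∀ σ : Fin (genusFF ℂ F) → ℂ, Divisor.degree (dv Q.χ σ - dv Q.χ Q.c) = 0 := by
    intro σ
    rw [map_sub, degree_dv, degree_dv, sub_self]
  rw [Q.E_apply hτ, Q.E_apply hτ', ← cls_sub (hd τ') (hd τ), sub_sub_sub_cancel_right]

theorem exists_ball (W : Set (Fin (genusFF ℂ F) → ℂ)) (hW : W ⊆ Q.V) (hWo : IsOpen W)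
    (hc : Q.c ∈ W) : ∃ ρ > 0, ∀ z : Fin (genusFF ℂ F) → ℂ, ‖z‖ < ρ → ∃ τ ∈ W, abSum ω Q.χ τ = z := by
  have ho := Q.isOpen_image W hW hWo
  have h0 : (0 : Fin (genusFF ℂ F) → ℂ) ∈ abSum ω Q.χ '' W := ⟨Q.c, hc, Q.abSum_c⟩
  obtain ⟨ρ, hρ, hball⟩ := Metric.isOpen_iff.1 ho 0 h0
  refine ⟨ρ, hρ, fun z hz => ?_⟩
  have hz' : z ∈ Metric.ball (0 : Fin (genusFF ℂ F) → ℂ) ρ := by
    rw [mem_ball_zero_iff]
    exact hz
  obtain ⟨τ, hτ, hτz⟩ := hball hz'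
  exact ⟨τ, hτ, hτz⟩

theorem E_inj : ∃ ρ > 0, ∀ z : Fin (genusFF ℂ F) → ℂ, ‖z‖ < ρ → Q.E z = 0 → z = 0 := by
  obtain ⟨ρ, hρ, hball⟩ := Q.exists_ball Q.V subset_rfl Q.isOpen_V Q.c_mem
  refine ⟨ρ, hρ, fun z hz hE => ?_⟩
  obtain ⟨τ, hτ, rfl⟩ := hball z hz
  rw [Q.E_apply hτ, cls_sub_eq_zero_iff (by rw [degree_dv, degree_dv])] at hE
  have heq : ∑ i, pt ((Q.χ i).pl (τ i)) = ∑ i, pt ((Q.χ i).pl (Q.c i)) :=
    eq_of_linEq_nonSpecial (Q.nonSpecial _ Q.c_mem) (fun i => (Q.χ i).pl (τ i)) hE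
  have hτc : τ = Q.c := by
    funext i
    obtain ⟨j, hj⟩ := exists_eq_of_sum_pt_eq (fun i => (Q.χ i).pl (τ i))
      (fun i => (Q.χ i).pl (Q.c i)) heq i
    have hij : i = j := by
      by_contra hne
      exact Q.disj i j hne (τ i) (Q.dom τ hτ i) (Q.c j) (Q.χ j).c_mem_dom hj
    subst hij
    exact (Q.χ i).pl_injOn (Q.dom τ hτ i) (Q.χ i).c_mem_dom hj
  rw [hτc, abSum_c]

end Base

end Fermat.Agent.S27
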