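import Fermat.Agent.S27.D.Defs
import Fermat.Agent.S27.ChartExists

/-! # S27 / D1a: three lemmas for `D/ExistsBase.lean` (owner of this file: helper49)

The matrix `hMat ω χ τ` of `D/ExistsBase.lean` is written out as
`fun i j => (χ i).H (ω j) (τ i)`, so the statements below are definitionally the statements
`nonSpecial_iff_det`, `continuousAt_det_hMat`, `exists_disjoint_charts` of that file.
-/

set_option autoImplicit false

noncomputable section

namespace Fermat.Agent.S27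

open AlgebraicCurve Fermat.Agent.S24.FF Topology

namespace ExistsBase1

section Lin

variable {F : Type*} [Field F] [Algebra ℂ F]

/-- `lam ↦ H lam τ` as a linear map. -/
def Hlin (χ : Chart F) (τ : ℂ) : WDiff ℂ F →ₗ[ℂ] ℂ where
  toFun lam := χ.H lam τ
  map_add' lam mu := WDiff.add_loc lam mu _ _
  map_smul' c lam := WDiff.smul_loc c lam _ _

theorem Hlin_apply (χ : Chart F) (τ : ℂ) (lam : WDiff ℂ F) : Hlin χ τ lam = χ.H lam τ := rfl

end Lin

variable {F : Type*} [Field F] [Algebra ℂ F] [IsFF1 ℂ F] [NonConst ℂ F]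
  (ω : Module.Basis (Fin (genusFF ℂ F)) ℂ (WDiff ℂ F))

omit [IsFF1 ℂ F] [NonConst ℂ F] in
theorem H_eq_mulVec (χ : Fin (genusFF ℂ F) → Chart F) (τ : Fin (genusFF ℂ F) → ℂ)
    (a : Fin (genusFF ℂ F) → ℂ) (i : Fin (genusFF ℂ F)) :
    (χ i).H (∑ j, a j • ω j) (τ i) =
      Matrix.mulVec (fun i j => (χ i).H (ω j) (τ i) :
        Matrix (Fin (genusFF ℂ F)) (Fin (genusFF ℂ F)) ℂ) a i := by
  rw [← Hlin_apply, map_sum]
  simp only [map_smul, Hlin_apply, smul_eq_mul, Matrix.mulVec, dotProduct]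
  exact Finset.sum_congr rfl fun j _ => mul_comm _ _

omit [NonConst ℂ F] in
theorem nonSpecial_iff_det (χ : Fin (genusFF ℂ F) → Chart F) (τ : Fin (genusFF ℂ F) → ℂ)
    (hτ : ∀ i, τ i ∈ (χ i).dom) (hinj : Function.Injective fun i => (χ i).pl (τ i)) :
    NonSpecial (fun i => (χ i).pl (τ i)) ↔
      Matrix.det (fun i j => (χ i).H (ω j) (τ i) :
        Matrix (Fin (genusFF ℂ F)) (Fin (genusFF ℂ F)) ℂ) ≠ 0 := by
  set M : Matrix (Fin (genusFF ℂ F)) (Fin (genusFF ℂ F)) ℂ :=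
    fun i j => (χ i).H (ω j) (τ i) with hM
  rw [Ne, ← Matrix.exists_mulVec_eq_zero_iff]
  constructor
  · rintro ⟨-, h⟩ ⟨a, ha0, ha⟩
    have hlam : (∑ j, a j • ω j) = 0 := by
      apply h
      intro i
      rw [(χ i).vanishAt_iff _ (hτ i), H_eq_mulVec ω χ τ a i, ← hM, ha]
      rfl
    apply ha0
    funext j
    have := (Fintype.linearIndependent_iff.1 ω.linearIndependent) a hlam j
    simpa using this
  · intro h
    refine ⟨hinj, fun lam hlam => ?_⟩
    by_contra hne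
    apply h
    refine ⟨fun j => ω.repr lam j, ?_, ?_⟩
    · intro h0
      apply hne
      rw [← ω.sum_repr lam]
      exact Finset.sum_eq_zero fun j _ => by
        rw [show ω.repr lam j = 0 from congrFun h0 j, zero_smul]
    · funext i
      rw [hM, ← H_eq_mulVec ω χ τ _ i, ω.sum_repr lam]
      exact ((χ i).vanishAt_iff _ (hτ i)).1 (hlam i)

omit [IsFF1 ℂ F] [NonConst ℂ F] in
theorem continuousAt_det_hMat (χ : Fin (genusFF ℂ F) → Chart F) (τ : Fin (genusFF ℂ F) → ℂ)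
    (hτ : ∀ i, τ i ∈ (χ i).dom) :
    ContinuousAt (fun σ : Fin (genusFF ℂ F) → ℂ => Matrix.det (fun i j => (χ i).H (ω j) (σ i) :
        Matrix (Fin (genusFF ℂ F)) (Fin (genusFF ℂ F)) ℂ)) τ := by
  have h1 : ContinuousAt (fun σ : Fin (genusFF ℂ F) → ℂ => (fun i j => (χ i).H (ω j) (σ i) :
        Matrix (Fin (genusFF ℂ F)) (Fin (genusFF ℂ F)) ℂ)) τ := by
    refine continuousAt_pi.2 fun i => continuousAt_pi.2 fun j => ?_
    have h2 : ContinuousAt ((χ i).H (ω j)) (τ i) := ((χ i).analyticAt_H (ω j) (hτ i)).continuousAt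
    exact ContinuousAt.comp (f := fun σ : Fin (genusFF ℂ F) → ℂ => σ i) h2
      (continuous_apply i).continuousAt
  exact ContinuousAt.comp
    (g := fun M : Matrix (Fin (genusFF ℂ F)) (Fin (genusFF ℂ F)) ℂ => M.det)
    (continuous_id.matrix_det).continuousAt h1

omit [NonConst ℂ F] in
/-- pairwise disjoint charts centred at distinct places -/
theorem exists_disjoint_charts {n : ℕ} (v : Fin n → Place ℂ F) (hv : Function.Injective v) :
    ∃ χ : Fin n → Chart F, (∀ i, (χ i).pl (χ i).c = v i) ∧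
      ∀ i j, i ≠ j → ∀ s ∈ (χ i).dom, ∀ s' ∈ (χ j).dom, (χ i).pl s ≠ (χ j).pl s' := by
  classical
  choose χ₀ hχ₀ using fun i => exists_chart (v i)
  have hpair : ∀ i j : Fin n, ∃ δ > 0, i ≠ j → ∀ σ ∈ Metric.ball (χ₀ i).c δ,
      ∀ σ' ∈ Metric.ball (χ₀ j).c δ, (χ₀ i).pl σ ≠ (χ₀ j).pl σ' := by
    intro i j
    by_cases hij : i = j
    · exact ⟨1, one_pos, fun h => absurd hij h⟩
    · obtain ⟨δ, hδ, h⟩ := (χ₀ i).eventually_ne (χ₀ j) (χ₀ i).c_mem_dom (χ₀ j).c_mem_dom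
        (by rw [hχ₀ i, hχ₀ j]; exact fun h => hij (hv h))
      exact ⟨δ, hδ, fun _ => h⟩
  choose δ hδ hdisj using hpair
  have hev : ∀ᶠ ε in 𝓝[>] (0 : ℝ), (∀ i, ε < (χ₀ i).r) ∧ (∀ i j, ε < δ i j) ∧ 0 < ε := by
    refine Filter.Eventually.and ?_ (Filter.Eventually.and ?_ self_mem_nhdsWithin)
    · exact Filter.eventually_all.2 fun i =>
        mem_nhdsWithin_of_mem_nhds (Iio_mem_nhds (χ₀ i).r_pos)
    · exact Filter.eventually_all.2 fun i => Filter.eventually_all.2 fun j =>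
        mem_nhdsWithin_of_mem_nhds (Iio_mem_nhds (hδ i j))
  obtain ⟨ε, hεr, hεδ, hε⟩ := hev.exists
  refine ⟨fun i => (χ₀ i).restrict (χ₀ i).c ε hε (Metric.ball_subset_ball (hεr i).le),
    fun i => hχ₀ i, fun i j hij s hs s' hs' => ?_⟩
  exact hdisj i j hij s (Metric.ball_subset_ball (hεδ i j).le hs) s'
    (Metric.ball_subset_ball (hεδ i j).le hs')

end ExistsBase1

end Fermat.Agent.S27
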