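import Fermat.Agent.S27.D.Defs
import Fermat.Agent.S27.ChartExists
import Fermat.Agent.S27.D.ExistsBase1

/-! # S27 / D1: existence of base tuples (inverse function theorem)

`exists_nonSpecial S` gives a non-special `g`-tuple `v` avoiding `S`; `exists_chart` gives charts `χ_i` centred at
`v i`; restrict them (`Chart.restrict`, `Chart.eventually_ne`) to make them pairwise disjoint.
`u = abSum ω χ : ℂ^g → ℂ^g` has at `τ` (all `τ_i ∈ dom`) the derivative `h ↦ ∑_i h_i • (H_i (ω_j) (τ_i))_j`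
(`Chart.hasDerivAt_prim`), it is analytic/C¹ there, so strictly differentiable.
`nonSpecial_iff`: the tuple `pl_i τ_i` (distinct by disjointness) is non-special iff the matrix
`M(τ) = (H_i (ω_j) (τ_i))_{i,j}` is invertible: `lam = ∑ a_j ω_j` vanishes at `pl_i τ_i` iff `H_i lam τ_i = 0`
(`Chart.vanishAt_iff`), and `H_i` is linear in `lam` (`WDiff.add_loc`, `WDiff.smul_loc`).
`det M(τ)` is continuous, so non-speciality is an open condition.
Inverse function theorem (`HasStrictFDerivAt.toOpenPartialHomeomorph`): `u` is an open partial homeomorphism near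
`c`; `V := source ∩ {τ | ∀ i, τ_i ∈ dom} ∩ {det M ≠ 0}`. -/

set_option autoImplicit false

noncomputable section

namespace Fermat.Agent.S27

open AlgebraicCurve Fermat.Agent.S24.FF

variable {F : Type*} [Field F] [Algebra ℂ F] [IsFF1 ℂ F] [NonConst ℂ F]
  (ω : Module.Basis (Fin (genusFF ℂ F)) ℂ (WDiff ℂ F))

/-- the period matrix of a tuple -/
def hMat (χ : Fin (genusFF ℂ F) → Chart F) (τ : Fin (genusFF ℂ F) → ℂ) :
    Matrix (Fin (genusFF ℂ F)) (Fin (genusFF ℂ F)) ℂ := fun i j => (χ i).H (ω j) (τ i)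

theorem nonSpecial_iff_det (χ : Fin (genusFF ℂ F) → Chart F) (τ : Fin (genusFF ℂ F) → ℂ)
    (hτ : ∀ i, τ i ∈ (χ i).dom) (hinj : Function.Injective fun i => (χ i).pl (τ i)) :
    NonSpecial (fun i => (χ i).pl (τ i)) ↔ (hMat ω χ τ).det ≠ 0 :=
  ExistsBase1.nonSpecial_iff_det ω χ τ hτ hinj

theorem continuousAt_det_hMat (χ : Fin (genusFF ℂ F) → Chart F) (τ : Fin (genusFF ℂ F) → ℂ)
    (hτ : ∀ i, τ i ∈ (χ i).dom) : ContinuousAt (fun σ => (hMat ω χ σ).det) τ :=
  ExistsBase1.continuousAt_det_hMat ω χ τ hτ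

omit [IsFF1 ℂ F] [NonConst ℂ F] in
/-- the primitive of a chart is strictly differentiable -/
theorem Chart.hasStrictDerivAt_prim (χ : Chart F) (lam : WDiff ℂ F) {τ : ℂ} (hτ : τ ∈ χ.dom) :
    HasStrictDerivAt (χ.prim lam) (χ.H lam τ) τ := by
  refine hasStrictDerivAt_of_hasDerivAt_of_continuousAt ?_ (χ.analyticAt_H lam hτ).continuousAt
  filter_upwards [χ.isOpen_dom.mem_nhds hτ] with σ hσ
  exact χ.hasDerivAt_prim lam hσ

omit [IsFF1 ℂ F] [NonConst ℂ F] in
theorem hasStrictFDerivAt_abSum (χ : Fin (genusFF ℂ F) → Chart F) (τ : Fin (genusFF ℂ F) → ℂ)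
    (hτ : ∀ i, τ i ∈ (χ i).dom) :
    HasStrictFDerivAt (abSum ω χ)
      (Matrix.toLin' (hMat ω χ τ).transpose).toContinuousLinearMap τ := by
  rw [hasStrictFDerivAt_pi']
  intro j
  have h1 : ∀ i ∈ (Finset.univ : Finset (Fin (genusFF ℂ F))),
      HasStrictFDerivAt (fun σ : Fin (genusFF ℂ F) → ℂ => (χ i).prim (ω j) (σ i))
        ((χ i).H (ω j) (τ i) • (ContinuousLinearMap.proj i :
          (Fin (genusFF ℂ F) → ℂ) →L[ℂ] ℂ)) τ := by
    intro i _
    exact ((χ i).hasStrictDerivAt_prim (ω j) (hτ i)).comp_hasStrictFDerivAt τ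
      (ContinuousLinearMap.proj i : (Fin (genusFF ℂ F) → ℂ) →L[ℂ] ℂ).hasStrictFDerivAt
  have h2 := HasStrictFDerivAt.fun_sum h1
  have e1 : (fun σ : Fin (genusFF ℂ F) → ℂ => abSum ω χ σ j)
      = fun σ => ∑ i, (χ i).prim (ω j) (σ i) := by
    funext σ
    simp [abSum, Chart.ab, Finset.sum_apply]
  rw [e1]
  convert h2 using 1
  ext h
  simp [Matrix.toLin'_apply, Matrix.mulVec, dotProduct, hMat, Matrix.transpose_apply]

/-- pairwise disjoint charts centred at distinct places -/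
theorem exists_disjoint_charts {n : ℕ} (v : Fin n → Place ℂ F) (hv : Function.Injective v) :
    ∃ χ : Fin n → Chart F, (∀ i, (χ i).pl (χ i).c = v i) ∧
      ∀ i j, i ≠ j → ∀ s ∈ (χ i).dom, ∀ s' ∈ (χ j).dom, (χ i).pl s ≠ (χ j).pl s' :=
  ExistsBase1.exists_disjoint_charts v hv

theorem exists_base (S : Finset (Place ℂ F)) : ∃ Q : Base ω, ∀ i, Q.p i ∉ S := by
  classical
  obtain ⟨v, hv, hvS⟩ := exists_nonSpecial (K := ℂ) (F := F) S
  obtain ⟨χ, hχc, hdisj⟩ := exists_disjoint_charts v hv.1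
  set c : Fin (genusFF ℂ F) → ℂ := fun i => (χ i).c with hc
  have hcdom : ∀ i, c i ∈ (χ i).dom := fun i => (χ i).c_mem_dom
  have hinj : ∀ τ : Fin (genusFF ℂ F) → ℂ, (∀ i, τ i ∈ (χ i).dom) →
      Function.Injective fun i => (χ i).pl (τ i) := by
    intro τ hτ i j hij
    by_contra hne
    exact hdisj i j hne _ (hτ i) _ (hτ j) hij
  have hvc : (fun i => (χ i).pl (c i)) = v := funext hχc
  have hdet : (hMat ω χ c).det ≠ 0 := by
    rw [← nonSpecial_iff_det ω χ c hcdom (hinj c hcdom), hvc]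
    exact hv
  -- the derivative as a continuous linear equivalence
  have hdet' : IsUnit (hMat ω χ c).transpose.det := by
    rw [Matrix.det_transpose]
    exact isUnit_iff_ne_zero.2 hdet
  let e : (Fin (genusFF ℂ F) → ℂ) ≃L[ℂ] (Fin (genusFF ℂ F) → ℂ) :=
    (Matrix.toLin'OfInv (M := (hMat ω χ c).transpose⁻¹) (M' := (hMat ω χ c).transpose)
      (Matrix.nonsing_inv_mul _ hdet') (Matrix.mul_nonsing_inv _ hdet')).toContinuousLinearEquiv
  have he : HasStrictFDerivAt (abSum ω χ)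
      (e : (Fin (genusFF ℂ F) → ℂ) →L[ℂ] (Fin (genusFF ℂ F) → ℂ)) c := by
    convert hasStrictFDerivAt_abSum ω χ c hcdom using 1
    ext h i
    simp [e, Matrix.toLin'OfInv]
  set φ := he.toOpenPartialHomeomorph (abSum ω χ) with hφ
  have hφcoe : (φ : (Fin (genusFF ℂ F) → ℂ) → (Fin (genusFF ℂ F) → ℂ)) = abSum ω χ :=
    he.toOpenPartialHomeomorph_coe
  set D : Set (Fin (genusFF ℂ F) → ℂ) := {τ | ∀ i, τ i ∈ (χ i).dom} with hD
  have hDopen : IsOpen D := by
    have : D = ⋂ i, (fun τ : Fin (genusFF ℂ F) → ℂ => τ i) ⁻¹' (χ i).dom := by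
      ext τ; simp [hD]
    rw [this]
    exact isOpen_iInter_of_finite fun i => (χ i).isOpen_dom.preimage (continuous_apply i)
  have hcont : ContinuousOn (fun σ => (hMat ω χ σ).det) D := fun τ hτ =>
    (continuousAt_det_hMat ω χ τ hτ).continuousWithinAt
  have hD'open : IsOpen (D ∩ (fun σ => (hMat ω χ σ).det) ⁻¹' {0}ᶜ) :=
    hcont.isOpen_inter_preimage hDopen isOpen_compl_singleton
  refine ⟨{ χ := χ
            V := φ.source ∩ (D ∩ (fun σ => (hMat ω χ σ).det) ⁻¹' {0}ᶜ)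
            isOpen_V := φ.open_source.inter hD'open
            c_mem := ⟨he.mem_toOpenPartialHomeomorph_source, hcdom, hdet⟩
            dom := fun τ hτ => hτ.2.1
            disj := hdisj
            injOn := ?_
            nonSpecial := ?_
            isOpen_image := ?_ }, ?_⟩
  · rw [← hφcoe]
    exact φ.injOn.mono Set.inter_subset_left
  · intro τ hτ
    exact (nonSpecial_iff_det ω χ τ hτ.2.1 (hinj τ hτ.2.1)).2 hτ.2.2
  · intro W hW hWo
    rw [← hφcoe]
    exact φ.isOpen_image_of_subset_source hWo (hW.trans Set.inter_subset_left)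
  · intro i
    change (χ i).pl (χ i).c ∉ S
    rw [hχc i]
    exact hvS i

end Fermat.Agent.S27
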