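import Mathlib

/-! # S27 / D0, D6: two standalone lemmas (only Mathlib)

* a function which is locally constant on a preconnected set is constant there;
* a locally additive map on a ball of a real normed space extends to a homomorphism:
  `E z := N • E₀ (z / N)` for `N > ‖z‖ / r`; independent of `N` because
  `E₀ (k • x) = k • E₀ x` as long as `‖k • x‖ < r` (induction on `k`).
-/

set_option autoImplicit false

noncomputable section

namespace Fermat.Agent.S27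

theorem eq_of_locally_const {X : Type*} {B : Set ℂ} (hB : IsPreconnected B) (Φ : ℂ → X)
    (h : ∀ s ∈ B, ∃ δ > 0, ∀ s' ∈ Metric.ball s δ, s' ∈ B → Φ s' = Φ s) {a b : ℂ} (ha : a ∈ B)
    (hb : b ∈ B) : Φ a = Φ b := by
  have : PreconnectedSpace B := isPreconnected_iff_preconnectedSpace.mp hB
  have hlc : IsLocallyConstant (fun x : B => Φ x) := by
    rw [IsLocallyConstant.iff_eventually_eq]
    intro x
    obtain ⟨δ, hδ, hx⟩ := h x x.2
    have hopen : (Subtype.val ⁻¹' Metric.ball (x : ℂ) δ : Set B) ∈ nhds x :=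
      (Metric.isOpen_ball.preimage continuous_subtype_val).mem_nhds (Metric.mem_ball_self hδ)
    filter_upwards [hopen] with y hy
    exact hx y hy y.2
  exact hlc.apply_eq_of_preconnectedSpace ⟨a, ha⟩ ⟨b, hb⟩

section LocalAdditive

variable {V G : Type*} [NormedAddCommGroup V] [NormedSpace ℝ V] [AddCommGroup G]

omit [NormedSpace ℝ V] in
private theorem la_zero (E₀ : V → G) (r : ℝ) (hr : 0 < r)
    (h : ∀ a b : V, ‖a‖ < r → ‖b‖ < r → E₀ (a + b) = E₀ a + E₀ b) : E₀ 0 = 0 := by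
  have h0 := h 0 0 (by simpa using hr) (by simpa using hr)
  rw [add_zero] at h0
  exact left_eq_add.mp h0

private theorem la_nsmul (E₀ : V → G) (r : ℝ) (hr : 0 < r)
    (h : ∀ a b : V, ‖a‖ < r → ‖b‖ < r → E₀ (a + b) = E₀ a + E₀ b) (k : ℕ) (x : V)
    (hx : ‖(k : ℝ) • x‖ < r) : E₀ ((k : ℝ) • x) = k • E₀ x := by
  induction k with
  | zero => simpa using la_zero E₀ r hr h
  | succ k ih =>
    have hk : (0 : ℝ) ≤ k := Nat.cast_nonneg k
    rw [norm_smul, Real.norm_of_nonneg (Nat.cast_nonneg _)] at hx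
    push_cast at hx
    have hn := norm_nonneg x
    have h1 : ‖(k : ℝ) • x‖ < r := by
      rw [norm_smul, Real.norm_of_nonneg hk]
      nlinarith
    have h2 : ‖x‖ < r := by nlinarith
    have e : ((k + 1 : ℕ) : ℝ) • x = (k : ℝ) • x + x := by
      push_cast
      rw [add_smul, one_smul]
    rw [e, h _ _ h1 h2, ih h1, succ_nsmul]

private theorem la_indep (E₀ : V → G) (r : ℝ) (hr : 0 < r)
    (h : ∀ a b : V, ‖a‖ < r → ‖b‖ < r → E₀ (a + b) = E₀ a + E₀ b) (z : V) (N M : ℕ)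
    (hN : 0 < N) (hM : 0 < M) (hzN : ‖((N : ℝ)⁻¹) • z‖ < r) (hzM : ‖((M : ℝ)⁻¹) • z‖ < r) :
    N • E₀ (((N : ℝ)⁻¹) • z) = M • E₀ (((M : ℝ)⁻¹) • z) := by
  have hN' : (N : ℝ) ≠ 0 := by exact_mod_cast hN.ne'
  have hM' : (M : ℝ) ≠ 0 := by exact_mod_cast hM.ne'
  set x : V := (((N : ℝ) * M)⁻¹) • z with hx
  have e1 : ((N : ℝ)⁻¹) • z = (M : ℝ) • x := by
    rw [hx, smul_smul]
    congr 1
    field_simp
  have e2 : ((M : ℝ)⁻¹) • z = (N : ℝ) • x := by
    rw [hx, smul_smul]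
    congr 1
    field_simp
  rw [e1] at hzN ⊢
  rw [e2] at hzM ⊢
  rw [la_nsmul E₀ r hr h M x hzN, la_nsmul E₀ r hr h N x hzM, smul_smul, smul_smul, mul_comm]

private theorem la_exists (r : ℝ) (hr : 0 < r) (z : V) :
    ∃ N₀ : ℕ, ∀ N : ℕ, N₀ ≤ N → 0 < N ∧ ‖((N : ℝ)⁻¹) • z‖ < r := by
  obtain ⟨N₀, hN₀⟩ := exists_nat_gt (‖z‖ / r)
  refine ⟨N₀ + 1, fun N hN => ?_⟩
  have hNpos : 0 < N := by omega
  have hN' : (0 : ℝ) < N := by exact_mod_cast hNpos
  refine ⟨hNpos, ?_⟩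
  rw [norm_smul, norm_inv, Real.norm_of_nonneg hN'.le, inv_mul_lt_iff₀ hN']
  have h1 : ‖z‖ < N₀ * r := (div_lt_iff₀ hr).mp hN₀
  have h2 : (N₀ : ℝ) ≤ N := by exact_mod_cast (by omega : N₀ ≤ N)
  nlinarith

end LocalAdditive

theorem exists_hom_of_local_additive {V G : Type*} [NormedAddCommGroup V] [NormedSpace ℝ V]
    [AddCommGroup G] (E₀ : V → G) (r : ℝ) (hr : 0 < r)
    (h : ∀ a b : V, ‖a‖ < r → ‖b‖ < r → E₀ (a + b) = E₀ a + E₀ b) :
    ∃ E : V →+ G, ∀ a : V, ‖a‖ < r → E a = E₀ a := by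
  classical
  choose N₀ hN₀ using la_exists (V := V) r hr
  let E : V → G := fun z => (N₀ z) • E₀ (((N₀ z : ℝ)⁻¹) • z)
  have hE : ∀ (z : V) (N : ℕ), 0 < N → ‖((N : ℝ)⁻¹) • z‖ < r →
      E z = N • E₀ (((N : ℝ)⁻¹) • z) := by
    intro z N hN hz
    obtain ⟨h1, h2⟩ := hN₀ z (N₀ z) le_rfl
    exact la_indep E₀ r hr h z (N₀ z) N h1 hN h2 hz
  refine ⟨AddMonoidHom.mk' E ?_, ?_⟩
  · intro z w
    set N := max (N₀ z) (max (N₀ w) (N₀ (z + w))) with hNdef
    obtain ⟨hN, hz⟩ := hN₀ z N (le_max_left _ _)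
    obtain ⟨-, hw⟩ := hN₀ w N ((le_max_left _ _).trans (le_max_right _ _))
    obtain ⟨-, hzw⟩ := hN₀ (z + w) N ((le_max_right _ _).trans (le_max_right _ _))
    rw [hE z N hN hz, hE w N hN hw, hE (z + w) N hN hzw, smul_add, h _ _ hz hw, smul_add]
  · intro a ha
    have := hE a 1 one_pos (by simpa using ha)
    simpa using this

end Fermat.Agent.S27
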