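import Fermat.Agent.S27.D.Additive
import Fermat.Agent.S27.D.ExistsBase
import Fermat.Agent.S27.D.LocConst
import Fermat.Agent.S27.D.BaseE

/-! # S27 / D7: the local Abel theorem (target of Part D)

PROOF.  `Q` from `exists_base ∅`, `Q'` from `exists_base {centres of Q}`.  `Base.additive` gives `r`;
`exists_hom_of_local_additive` applied to `Q'.E` gives `E` with `E = Q'.E = Q.E` on `ball 0 r`.
Local injectivity: `Q'.E_inj`.
(★): fix `χ`, `s' ∈ dom`.  `Δ s := cls (pt (pl s) - pt (pl s')) - E (ab s - ab s')`.  `Δ` is locally constant on `dom`: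
at `s₀`, `pl s₀` is not a centre of `Q` or not a centre of `Q'`; `local_star` for that base (with `w = 0`, `E_zero`)
gives `cls (pt (pl s₁) - pt (pl s₂)) = E (ab s₁ - ab s₂)` for `s₁, s₂` near `s₀` (shrink so that `‖ab s₁ - ab s₂‖ < r`);
so `Δ s₁ = Δ s₂` (`cls_pt_sub_pt_add`, additivity of `E`).  `dom` is a ball, hence preconnected
(`eq_of_locally_const`), and `Δ s' = 0`. -/

set_option autoImplicit false

noncomputable section

namespace Fermat.Agent.S27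

open AlgebraicCurve Fermat.Agent.S24.FF

variable {F : Type*} [Field F] [Algebra ℂ F] [IsFF1 ℂ F] [NonConst ℂ F]

/-- the local statement used in `exists_abel`: near a point of a chart which is not a centre of the
base tuple `B`, the class of `pt (pl s) - pt (pl s₀)` is `E (ab s - ab s₀)`. -/
theorem Base.local_abel_aux {ω : Module.Basis (Fin (genusFF ℂ F)) ℂ (WDiff ℂ F)} (B : Base ω)
    (E : (Fin (genusFF ℂ F) → ℂ) →+ Pic0 ℂ F) {r : ℝ} (hr : 0 < r)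
    (hBE : ∀ a : Fin (genusFF ℂ F) → ℂ, ‖a‖ < r → B.E a = E a)
    (χ : Chart F) {s₀ : ℂ} (hs₀ : s₀ ∈ χ.dom) (hne : ∀ i, χ.pl s₀ ≠ B.p i) :
    ∃ δ > 0, ∀ s ∈ Metric.ball s₀ δ,
      cls (pt (χ.pl s) - pt (χ.pl s₀)) = E (χ.ab ω s - χ.ab ω s₀) := by
  obtain ⟨δ, hδ, r', hr', hsub, hstar⟩ := B.local_star χ hs₀ hne
  have hcont : ContinuousAt (χ.ab ω) s₀ :=
    (continuousOn_ab χ ω).continuousAt (Metric.isOpen_ball.mem_nhds hs₀)
  obtain ⟨δ', hδ', hclose⟩ := Metric.continuousAt_iff.1 hcont r hr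
  refine ⟨min δ δ', lt_min hδ hδ', fun s hs => ?_⟩
  have hs1 : s ∈ Metric.ball s₀ δ := Metric.ball_subset_ball (min_le_left _ _) hs
  have hs2 : dist s s₀ < δ' := lt_of_lt_of_le (Metric.mem_ball.1 hs) (min_le_right _ _)
  have hnorm : ‖χ.ab ω s - χ.ab ω s₀‖ < r := by
    rw [← dist_eq_norm]
    exact hclose hs2
  have h := hstar s hs1 s₀ (Metric.mem_ball_self hδ) 0 (by simpa using hr')
  rw [zero_add, B.E_zero, sub_zero, hBE _ hnorm] at h
  exact h.symm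

theorem exists_abel (ω : Module.Basis (Fin (genusFF ℂ F)) ℂ (WDiff ℂ F)) :
    ∃ E : (Fin (genusFF ℂ F) → ℂ) →+ Pic0 ℂ F,
      (∃ r : ℝ, 0 < r ∧ ∀ u : Fin (genusFF ℂ F) → ℂ, ‖u‖ < r → E u = 0 → u = 0) ∧
      ∀ χ : Chart F, ∀ s ∈ χ.dom, ∀ s' ∈ χ.dom,
        cls (pt (χ.pl s) - pt (χ.pl s')) = E (χ.ab ω s - χ.ab ω s') := by
  classical
  obtain ⟨Q, -⟩ := exists_base ω (∅ : Finset (Place ℂ F))
  obtain ⟨Q', hQ'⟩ := exists_base ω (Finset.univ.image Q.p)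
  have hQQ' : ∀ i j, Q.p i ≠ Q'.p j := fun i j h =>
    hQ' j (h ▸ Finset.mem_image_of_mem _ (Finset.mem_univ i))
  obtain ⟨r, hr, hEq, hadd⟩ := Base.additive Q Q' hQQ'
  obtain ⟨E, hE⟩ := exists_hom_of_local_additive Q'.E r hr hadd
  have hE' : ∀ a : Fin (genusFF ℂ F) → ℂ, ‖a‖ < r → Q'.E a = E a := fun a ha => (hE a ha).symm
  have hEQ : ∀ a : Fin (genusFF ℂ F) → ℂ, ‖a‖ < r → Q.E a = E a := fun a ha =>
    (hEq a ha).trans (hE' a ha)
  refine ⟨E, ?_, ?_⟩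
  · obtain ⟨ρ, hρ, hinj⟩ := Q'.E_inj
    refine ⟨min r ρ, lt_min hr hρ, fun u hu hu0 => ?_⟩
    refine hinj u (lt_of_lt_of_le hu (min_le_right _ _)) ?_
    rw [hE' u (lt_of_lt_of_le hu (min_le_left _ _)), hu0]
  · intro χ s hs s' hs'
    -- the local statement at every point of the domain
    have hloc : ∀ s₀ ∈ χ.dom, ∃ δ > 0, ∀ σ ∈ Metric.ball s₀ δ,
        cls (pt (χ.pl σ) - pt (χ.pl s₀)) = E (χ.ab ω σ - χ.ab ω s₀) := by
      intro s₀ hs₀
      by_cases hc : ∀ i, χ.pl s₀ ≠ Q.p i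
      · exact Q.local_abel_aux E hr hEQ χ hs₀ hc
      · push Not at hc
        obtain ⟨i, hi⟩ := hc
        exact Q'.local_abel_aux E hr hE' χ hs₀ fun j hj => hQQ' i j (hi.symm.trans hj)
    set Δ : ℂ → Pic0 ℂ F := fun σ =>
      cls (pt (χ.pl σ) - pt (χ.pl s')) - E (χ.ab ω σ - χ.ab ω s') with hΔ
    have hconst : Δ s = Δ s' := by
      refine eq_of_locally_const (B := χ.dom) (convex_ball _ _).isPreconnected Δ ?_ hs hs'
      intro s₀ hs₀
      obtain ⟨δ, hδ, h⟩ := hloc s₀ hs₀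
      refine ⟨δ, hδ, fun σ hσ _ => ?_⟩
      have h1 := h σ hσ
      have h2 := cls_pt_sub_pt_add (χ.pl σ) (χ.pl s₀) (χ.pl s')
      have h3 : E (χ.ab ω σ - χ.ab ω s') =
          E (χ.ab ω σ - χ.ab ω s₀) + E (χ.ab ω s₀ - χ.ab ω s') := by
        rw [← map_add, sub_add_sub_cancel]
      simp only [hΔ]
      rw [← h2, h3, h1]
      abel
    have hzero : Δ s' = 0 := by
      simp only [hΔ]
      rw [sub_self, sub_self, cls_zero, map_zero, sub_zero]
    rw [hzero] at hconst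
    exact sub_eq_zero.1 hconst

end Fermat.Agent.S27
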