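import Fermat.Agent.S27.D.LocalStar

/-! # S27 / D5: `Q.E` is additive near `0` and does not depend on `Q`

PROOF.  Apply `Q'.local_star` to the charts `χ₀ = Q.χ i` at `s₀ = c_i` (allowed by `hQQ'`): `δ_i, r_i`; `δ = min`,
`r₀ = min`.  Choose `δ' ≤ δ` with `‖ab_i s‖ < r₀ / (2 (g+1))` for `s ∈ ball c_i δ'` (`continuousOn_ab`, `ab_c`).
`W := Q.V ∩ {τ | ∀ i, τ i ∈ ball c_i δ'}`.  For `τ ∈ W` and `‖w‖ < r₀/2`, moving the points one at a time
(`w_i = w + ∑_{k<i} ab_k τ_k`, `‖w_i‖ < r₀`):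
`cls (dv τ - dv c) = ∑_i cls (pt (pl_i τ_i) - pt (pl_i c_i)) = ∑_i (Q'.E (w_i + ab_i τ_i) - Q'.E w_i)
  = Q'.E (w + abSum τ) - Q'.E w`   (telescoping).
By `Q.exists_ball W` every `‖a‖ < ρ` is `abSum τ`, `τ ∈ W`:  `Q.E a = Q'.E (w + a) - Q'.E w`.
`w = 0`: `Q.E a = Q'.E a`.  Then `Q'.E (w + a) = Q'.E w + Q'.E a`.  `r := min ρ (r₀/2)`. -/

set_option autoImplicit false

noncomputable section

namespace Fermat.Agent.S27

open AlgebraicCurve Fermat.Agent.S24.FF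

variable {F : Type*} [Field F] [Algebra ℂ F] [IsFF1 ℂ F] [NonConst ℂ F]
  {ω : Module.Basis (Fin (genusFF ℂ F)) ℂ (WDiff ℂ F)}

/-- a finite family of positive reals has a positive lower bound -/
theorem exists_pos_le_of_finite {ι : Type*} [Finite ι] (r : ι → ℝ) (h : ∀ i, 0 < r i) :
    ∃ ρ > 0, ∀ i, ρ ≤ r i := by
  rcases isEmpty_or_nonempty ι with he | hne
  · exact ⟨1, one_pos, fun i => (he.false i).elim⟩
  · obtain ⟨i₀, hi₀⟩ := Finite.exists_min r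
    exact ⟨r i₀, h i₀, hi₀⟩

omit [IsFF1 ℂ F] [NonConst ℂ F] in
/-- telescoping: moving the points of a tuple one at a time -/
theorem Base.telescope (Q' : Base ω) {ι : Type} [DecidableEq ι] (χ : ι → Chart F) (τ : ι → ℂ)
    (r₀ ε : ℝ)
    (hstar : ∀ i, ∀ w : Fin (genusFF ℂ F) → ℂ, ‖w‖ < r₀ →
      Q'.E (w + (χ i).ab ω (τ i)) - Q'.E w = cls (pt ((χ i).pl (τ i)) - pt ((χ i).pl (χ i).c)))
    (hε : ∀ i, ‖(χ i).ab ω (τ i)‖ ≤ ε) (s : Finset ι) :
    ∀ w : Fin (genusFF ℂ F) → ℂ, ‖w‖ + s.card * ε < r₀ →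
      Q'.E (w + ∑ i ∈ s, (χ i).ab ω (τ i)) - Q'.E w =
        ∑ i ∈ s, cls (pt ((χ i).pl (τ i)) - pt ((χ i).pl (χ i).c)) := by
  induction s using Finset.induction_on with
  | empty => intro w _; simp
  | insert a s ha ih =>
    intro w hw
    rw [Finset.card_insert_of_notMem ha] at hw
    push_cast at hw
    have hε0 : 0 ≤ ε := (norm_nonneg _).trans (hε a)
    have h1 : ‖w‖ + s.card * ε < r₀ := by nlinarith
    have h2 : ‖w + ∑ i ∈ s, (χ i).ab ω (τ i)‖ < r₀ := by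
      calc ‖w + ∑ i ∈ s, (χ i).ab ω (τ i)‖ ≤ ‖w‖ + ‖∑ i ∈ s, (χ i).ab ω (τ i)‖ := norm_add_le _ _
        _ ≤ ‖w‖ + ∑ i ∈ s, ‖(χ i).ab ω (τ i)‖ := by gcongr; exact norm_sum_le _ _
        _ ≤ ‖w‖ + s.card * ε := by
            gcongr
            have := Finset.sum_le_card_nsmul s (fun i => ‖(χ i).ab ω (τ i)‖) ε (fun i _ => hε i)
            simpa [nsmul_eq_mul] using this
        _ < r₀ := h1
    have h3 := hstar a _ h2
    have h4 := ih w h1
    rw [Finset.sum_insert ha, Finset.sum_insert ha, ← h3, ← h4]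
    have : w + ((χ a).ab ω (τ a) + ∑ i ∈ s, (χ i).ab ω (τ i)) =
        w + ∑ i ∈ s, (χ i).ab ω (τ i) + (χ a).ab ω (τ a) := by abel
    rw [this]
    abel

theorem Base.additive (Q Q' : Base ω) (hQQ' : ∀ i j, Q.p i ≠ Q'.p j) :
    ∃ r > 0, (∀ a : Fin (genusFF ℂ F) → ℂ, ‖a‖ < r → Q.E a = Q'.E a) ∧
      ∀ a b : Fin (genusFF ℂ F) → ℂ, ‖a‖ < r → ‖b‖ < r → Q'.E (a + b) = Q'.E a + Q'.E b := by
  classical
  -- local star at every centre of `Q`
  have hloc := fun i => Q'.local_star (Q.χ i) (Q.χ i).c_mem_dom (hQQ' i)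
  choose δ hδ r hr hball hstar using hloc
  obtain ⟨r₀, hr₀, hr₀le⟩ := exists_pos_le_of_finite r hr
  set ε : ℝ := r₀ / (2 * ((genusFF ℂ F : ℝ) + 1)) with hεdef
  have hg1 : (0 : ℝ) < 2 * ((genusFF ℂ F : ℝ) + 1) := by positivity
  have hε : 0 < ε := div_pos hr₀ hg1
  -- shrink the discs
  have hcont : ∀ i, ∃ δ' > 0, δ' ≤ δ i ∧
      ∀ s ∈ Metric.ball (Q.χ i).c δ', ‖(Q.χ i).ab ω s‖ < ε := by
    intro i
    have hc : ContinuousAt ((Q.χ i).ab ω) (Q.χ i).c :=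
      (continuousOn_ab (Q.χ i) ω).continuousAt ((Q.χ i).isOpen_dom.mem_nhds (Q.χ i).c_mem_dom)
    obtain ⟨d, hd, hd'⟩ := Metric.continuousAt_iff.1 hc ε hε
    refine ⟨min d (δ i), lt_min hd (hδ i), min_le_right _ _, fun s hs => ?_⟩
    have h1 : dist s (Q.χ i).c < d := lt_of_lt_of_le (Metric.mem_ball.1 hs) (min_le_left _ _)
    have h2 := hd' h1
    rwa [ab_c, dist_zero_right] at h2
  choose δ' hδ' hδ'le hsmall using hcont
  set W : Set (Fin (genusFF ℂ F) → ℂ) :=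
    Q.V ∩ Set.pi Set.univ (fun i => Metric.ball (Q.χ i).c (δ' i)) with hW
  have hWV : W ⊆ Q.V := Set.inter_subset_left
  have hWo : IsOpen W :=
    Q.isOpen_V.inter (isOpen_set_pi Set.finite_univ fun i _ => Metric.isOpen_ball)
  have hcW : Q.c ∈ W := ⟨Q.c_mem, fun i _ => Metric.mem_ball_self (hδ' i)⟩
  obtain ⟨ρ, hρ, hρ'⟩ := Q.exists_ball W hWV hWo hcW
  -- the key identity
  have key : ∀ a w : Fin (genusFF ℂ F) → ℂ, ‖a‖ < ρ → ‖w‖ < r₀ / 2 →
      Q.E a = Q'.E (w + a) - Q'.E w := by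
    intro a w ha hw
    obtain ⟨τ, hτW, rfl⟩ := hρ' a ha
    have hτball : ∀ i, τ i ∈ Metric.ball (Q.χ i).c (δ' i) := fun i => hτW.2 i (Set.mem_univ i)
    rw [Q.E_apply (hWV hτW)]
    have hst : ∀ i, ∀ w : Fin (genusFF ℂ F) → ℂ, ‖w‖ < r₀ →
        Q'.E (w + (Q.χ i).ab ω (τ i)) - Q'.E w =
          cls (pt ((Q.χ i).pl (τ i)) - pt ((Q.χ i).pl (Q.χ i).c)) := by
      intro i w hw
      have h1 := hstar i (τ i) (Metric.ball_subset_ball (hδ'le i) (hτball i)) (Q.χ i).c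
        (Metric.mem_ball_self (hδ i)) w (lt_of_lt_of_le hw (hr₀le i))
      rwa [ab_c, sub_zero] at h1
    have htel := Q'.telescope Q.χ τ r₀ ε hst (fun i => (hsmall i (τ i) (hτball i)).le)
      Finset.univ w (by
        rw [Finset.card_univ, Fintype.card_fin]
        have h2 : (genusFF ℂ F : ℝ) * ε < r₀ / 2 := by
          rw [hεdef, mul_div_assoc', div_lt_div_iff₀ hg1 two_pos]
          nlinarith
        linarith)
    have hsum : abSum ω Q.χ τ = ∑ i, (Q.χ i).ab ω (τ i) := rfl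
    rw [hsum, htel, ← cls_sum _ _ (fun i _ => degree_pt_sub_pt _ _), Finset.sum_sub_distrib]
    rfl
  refine ⟨min ρ (r₀ / 2), lt_min hρ (half_pos hr₀), ?_, ?_⟩
  · intro a ha
    have h := key a 0 (lt_of_lt_of_le ha (min_le_left _ _)) (by rw [norm_zero]; exact half_pos hr₀)
    rw [h, zero_add, Q'.E_zero, sub_zero]
  · intro a b ha hb
    have h0 := key b 0 (lt_of_lt_of_le hb (min_le_left _ _))
      (by rw [norm_zero]; exact half_pos hr₀)
    have h1 := key b a (lt_of_lt_of_le hb (min_le_left _ _)) (lt_of_lt_of_le ha (min_le_right _ _))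
    rw [zero_add, Q'.E_zero, sub_zero] at h0
    rw [h0] at h1
    rw [h1]
    abel

end Fermat.Agent.S27
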