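import Fermat.Agent.S27.ChartAPI
import Fermat.Agent.S27.WRR2

/-! # S27 / Part D (local Abel theorem): definitions.  Owner: helper27.

`g = genusFF ℂ F`, `ω` a basis of `WDiff ℂ F`.
* `χ.ab ω s : ℂ^g`      the Abel map of a chart (primitives of `ω_j / dt`, zero at the centre)
* `abSum ω χ τ`         `∑_i (χ i).ab ω (τ i)` for a tuple of charts
* `dv χ τ`              the divisor `∑_i pt ((χ i).pl (τ i))`
* `Base ω`              a `g`-tuple of pairwise disjoint charts together with an open set `V` of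
                        parameters on which `abSum` is injective and open and all tuples are non-special
* `Q.E z`               the class `[dv τ - dv c]` where `abSum τ = z`, `τ ∈ V`
-/

set_option autoImplicit false

noncomputable section

namespace Fermat.Agent.S27

open AlgebraicCurve Fermat.Agent.S24.FF

variable {F : Type*} [Field F] [Algebra ℂ F]

/-- the Abel map of a chart -/
def Chart.ab (χ : Chart F) (ω : Module.Basis (Fin (genusFF ℂ F)) ℂ (WDiff ℂ F)) (s : ℂ) :
    Fin (genusFF ℂ F) → ℂ := fun j => χ.prim (ω j) s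

/-- the Abel sum of a tuple -/
def abSum {ι : Type} [Fintype ι] (ω : Module.Basis (Fin (genusFF ℂ F)) ℂ (WDiff ℂ F))
    (χ : ι → Chart F) (τ : ι → ℂ) : Fin (genusFF ℂ F) → ℂ := ∑ i, (χ i).ab ω (τ i)

/-- the divisor of a tuple -/
def dv {ι : Type} [Fintype ι] (χ : ι → Chart F) (τ : ι → ℂ) : Divisor ℂ F :=
  ∑ i, pt ((χ i).pl (τ i))

/-- base tuple -/
structure Base (ω : Module.Basis (Fin (genusFF ℂ F)) ℂ (WDiff ℂ F)) where
  χ : Fin (genusFF ℂ F) → Chart F
  V : Set (Fin (genusFF ℂ F) → ℂ)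
  isOpen_V : IsOpen V
  c_mem : (fun i => (χ i).c) ∈ V
  dom : ∀ τ ∈ V, ∀ i, τ i ∈ (χ i).dom
  disj : ∀ i j, i ≠ j → ∀ s ∈ (χ i).dom, ∀ s' ∈ (χ j).dom, (χ i).pl s ≠ (χ j).pl s'
  injOn : Set.InjOn (abSum ω χ) V
  nonSpecial : ∀ τ ∈ V, NonSpecial (fun i => (χ i).pl (τ i))
  isOpen_image : ∀ W, W ⊆ V → IsOpen W → IsOpen (abSum ω χ '' W)

namespace Base

variable {ω : Module.Basis (Fin (genusFF ℂ F)) ℂ (WDiff ℂ F)} (Q : Base ω)

/-- the tuple of centres -/
def c : Fin (genusFF ℂ F) → ℂ := fun i => (Q.χ i).c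

/-- the centre places -/
def p (i : Fin (genusFF ℂ F)) : Place ℂ F := (Q.χ i).pl (Q.χ i).c

open Classical in
/-- the local Abel-Jacobi inverse -/
def E (z : Fin (genusFF ℂ F) → ℂ) : Pic0 ℂ F :=
  if h : ∃ τ ∈ Q.V, abSum ω Q.χ τ = z then cls (dv Q.χ h.choose - dv Q.χ Q.c) else 0

end Base

end Fermat.Agent.S27
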