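import Fermat.Agent.S27.D.Moving
import Fermat.Agent.S27.D.BaseE
import Fermat.Agent.S27.D.LocConst

/-! # S27 / D3: the class of `pt (pl₀ s) + dv τ` is constant on the level sets of `ab₀ s + abSum τ`

PROOF.  For `s ∈ B` let `θ s ∈ W` be the solution of `abSum (θ s) = z - ab₀ s` (exists by `hz`, unique by `Q.injOn`).
`Φ s :=` the class of `pt (pl₀ s) + dv (θ s)` in `Divisor ⧸ principal`.  By `eq_of_locally_const` it suffices to show
that `Φ` is locally constant on `B`.  At `s* ∈ B`: `τ* = θ s*`; the tuple `pl τ*` is non-special and `q = pl₀ s*` is not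
in it (`hdisj`); take `f` from `exists_simple_pole`; apply `moving_lemma` with `ι = Option (Fin g)`, charts
`χ₀, Q.χ i`, `i₀ = none`, and `η` so small that the `η`-ball (sup norm) around `τ*` is in `W`.  For `s` near `s*` we
get `σ` with `σ none = s`, `σ' := σ ∘ some ∈ W`, the divisor linearly equivalent to the one at `(s*, τ*)`, and
`ab₀ s + abSum σ' = ab₀ s* + abSum τ* = z`; so `σ' = θ s` by `Q.injOn`. -/

set_option autoImplicit false

noncomputable section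

namespace Fermat.Agent.S27

open AlgebraicCurve Fermat.Agent.S24.FF

variable {F : Type*} [Field F] [Algebra ℂ F] [IsFF1 ℂ F] [NonConst ℂ F]
  {ω : Module.Basis (Fin (genusFF ℂ F)) ℂ (WDiff ℂ F)}

/-- the local step of `LL` -/
theorem LL_local (Q : Base ω) (W : Set (Fin (genusFF ℂ F) → ℂ)) (hW : W ⊆ Q.V) (hWo : IsOpen W)
    (χ₀ : Chart F) {s : ℂ} (hs : s ∈ χ₀.dom) {τ : Fin (genusFF ℂ F) → ℂ} (hτ : τ ∈ W)
    (hdisj : ∀ i, χ₀.pl s ≠ (Q.χ i).pl (τ i)) :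
    ∃ δ > 0, ∀ s' ∈ Metric.ball s δ, ∃ τ' ∈ W,
      abSum ω Q.χ τ' + χ₀.ab ω s' = abSum ω Q.χ τ + χ₀.ab ω s ∧
      LinEq (pt (χ₀.pl s') + dv Q.χ τ') (pt (χ₀.pl s) + dv Q.χ τ) := by
  classical
  have hns := Q.nonSpecial τ (hW hτ)
  obtain ⟨f, hfq, hfv, hfreg⟩ := exists_simple_pole hns (χ₀.pl s) (fun i => (hdisj i).symm)
  obtain ⟨η, hη, hηW⟩ := Metric.isOpen_iff.1 hWo τ hτ
  set X : Option (Fin (genusFF ℂ F)) → Chart F := fun o => o.elim χ₀ Q.χ with hX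
  set T : Option (Fin (genusFF ℂ F)) → ℂ := fun o => o.elim s τ with hT
  have hTdom : ∀ o, T o ∈ (X o).dom := by
    rintro (_ | i)
    · exact hs
    · exact Q.dom τ (hW hτ) i
  have hinj : Function.Injective fun o => (X o).pl (T o) := by
    rintro (_ | i) (_ | j) h
    · rfl
    · exact absurd h (hdisj j)
    · exact absurd h.symm (hdisj i)
    · exact congrArg some (hns.1 h)
  have hf : ∀ o, -1 ≤ ((X o).pl (T o)).ord f := by
    rintro (_ | i)
    · exact hfq.ge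
    · exact hfv i
  have hreg : ∀ w : Place ℂ F, (∀ o, w ≠ (X o).pl (T o)) → 0 ≤ w.ord f := by
    intro w hw
    exact hfreg w (hw none) (fun i => hw (some i))
  obtain ⟨δ, hδ, hmove⟩ := moving_lemma X T hTdom hinj f hf hreg none hfq η hη
  refine ⟨δ, hδ, fun s' hs' => ?_⟩
  obtain ⟨σ, hσ0, hσ, hlin, hsum⟩ := hmove s' hs'
  refine ⟨fun i => σ (some i), hηW ?_, ?_, ?_⟩
  · rw [Metric.mem_ball, dist_pi_lt_iff hη]
    exact fun i => (hσ (some i)).2
  · funext j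
    have := hsum (ω j)
    rw [Fintype.sum_option, Fintype.sum_option] at this
    simp only [abSum, Chart.ab, Pi.add_apply, Finset.sum_apply]
    simp only [hX, hT, Option.elim, hσ0] at this
    rw [add_comm, this, add_comm]
  · rw [Fintype.sum_option, Fintype.sum_option] at hlin
    simpa only [hX, hT, Option.elim, hσ0, dv] using hlin

theorem LL (Q : Base ω) (W : Set (Fin (genusFF ℂ F) → ℂ)) (hW : W ⊆ Q.V) (hWo : IsOpen W)
    (χ₀ : Chart F) (B : Set ℂ) (hB : IsPreconnected B) (hBo : IsOpen B) (hBdom : B ⊆ χ₀.dom)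
    (hdisj : ∀ s ∈ B, ∀ τ ∈ W, ∀ i, χ₀.pl s ≠ (Q.χ i).pl (τ i))
    (z : Fin (genusFF ℂ F) → ℂ) (hz : ∀ s ∈ B, ∃ τ ∈ W, abSum ω Q.χ τ = z - χ₀.ab ω s)
    {s s' : ℂ} (hs : s ∈ B) (hs' : s' ∈ B) {τ τ' : Fin (genusFF ℂ F) → ℂ} (hτ : τ ∈ W)
    (hτ' : τ' ∈ W) (h : abSum ω Q.χ τ = z - χ₀.ab ω s) (h' : abSum ω Q.χ τ' = z - χ₀.ab ω s') :
    LinEq (pt (χ₀.pl s) + dv Q.χ τ) (pt (χ₀.pl s') + dv Q.χ τ') := by
  classical
  -- the class, as the set of divisors which are equivalent to some (hence every) solution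
  set Φ : ℂ → Set (Divisor ℂ F) := fun a =>
    {D | ∀ σ ∈ W, abSum ω Q.χ σ = z - χ₀.ab ω a → LinEq D (pt (χ₀.pl a) + dv Q.χ σ)} with hΦ
  have hloc : ∀ a ∈ B, ∃ δ > 0, ∀ a' ∈ Metric.ball a δ, a' ∈ B → Φ a' = Φ a := by
    intro a ha
    obtain ⟨σ, hσW, hσ⟩ := hz a ha
    obtain ⟨δ, hδ, hmove⟩ := LL_local Q W hW hWo χ₀ (hBdom ha) hσW (hdisj a ha σ hσW)
    refine ⟨δ, hδ, fun a' ha' _ => ?_⟩
    obtain ⟨σ', hσ'W, hsum, hlin⟩ := hmove a' ha'
    have hσ' : abSum ω Q.χ σ' = z - χ₀.ab ω a' := by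
      rw [hσ] at hsum
      rw [eq_sub_iff_add_eq, hsum, sub_add_cancel]
    ext D
    constructor
    · intro hD ρ hρW hρ
      have : ρ = σ := Q.injOn (hW hρW) (hW hσW) (hρ.trans hσ.symm)
      subst this
      exact (hD σ' hσ'W hσ').trans hlin
    · intro hD ρ hρW hρ
      have : ρ = σ' := Q.injOn (hW hρW) (hW hσ'W) (hρ.trans hσ'.symm)
      subst this
      exact (hD σ hσW hσ).trans hlin.symm
  have hEq : Φ s = Φ s' := eq_of_locally_const hB Φ hloc hs hs'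
  have hmem : (pt (χ₀.pl s) + dv Q.χ τ) ∈ Φ s := by
    intro ρ hρW hρ
    have : ρ = τ := Q.injOn (hW hρW) (hW hτ) (hρ.trans h.symm)
    subst this
    exact LinEq.refl _
  rw [hEq] at hmem
  exact hmem τ' hτ' h'

end Fermat.Agent.S27
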