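import Fermat.Agent.S27.D.LL

/-! # S27 / D4: the local form of Abel's theorem relative to a base tuple

PROOF.  By `Chart.eventually_ne` (for each `i`) there is `δ₁` with `pl₀ σ ≠ pl_i σ'` for `σ ∈ ball s₀ δ₁`,
`σ' ∈ ball c_i δ₁`.  `W := Q.V ∩ {τ | ∀ i, τ i ∈ ball c_i δ₁}` is open and contains `Q.c`; `Q.exists_ball W` gives `ρ`.
Choose `δ ≤ δ₁` with `ball s₀ δ ⊆ dom` and `‖ab₀ s - ab₀ s₀‖ < ρ/4` on `B := ball s₀ δ` (`continuousOn_ab`); `r := ρ/2`.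
Given `s, s' ∈ B`, `‖w‖ < r`: `z := w + ab₀ s`; for `s'' ∈ B`, `‖z - ab₀ s''‖ < ρ`, so `hz` of `LL` holds.  Take
`τ, τ' ∈ W` with `abSum τ = w = z - ab₀ s`, `abSum τ' = w + ab₀ s - ab₀ s' = z - ab₀ s'`.  `LL` gives
`pt (pl₀ s) + dv τ ~ pt (pl₀ s') + dv τ'`, i.e. `cls (dv τ' - dv τ) = cls (pt (pl₀ s) - pt (pl₀ s'))`; conclude by `Q.E_sub`. -/

set_option autoImplicit false

noncomputable section

namespace Fermat.Agent.S27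

open AlgebraicCurve Fermat.Agent.S24.FF

variable {F : Type*} [Field F] [Algebra ℂ F] [IsFF1 ℂ F] [NonConst ℂ F]
  {ω : Module.Basis (Fin (genusFF ℂ F)) ℂ (WDiff ℂ F)}

/-- a positive lower bound for finitely many positive reals -/
theorem exists_pos_forall_lt_of_finite {ι : Type*} [Finite ι] (δ : ι → ℝ) (hδ : ∀ i, 0 < δ i) :
    ∃ x > 0, ∀ i, x < δ i := by
  have h : ∀ᶠ x in nhdsWithin (0 : ℝ) (Set.Ioi 0), ∀ i, x < δ i := by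
    rw [Filter.eventually_all]
    intro i
    exact Filter.mem_of_superset (Ioo_mem_nhdsGT (hδ i)) fun x hx => hx.2
  obtain ⟨x, hx, hx0⟩ := (h.and self_mem_nhdsWithin).exists
  exact ⟨x, hx0, hx⟩

theorem Base.local_star (Q : Base ω) (χ₀ : Chart F) {s₀ : ℂ} (hs₀ : s₀ ∈ χ₀.dom)
    (hne : ∀ i, χ₀.pl s₀ ≠ Q.p i) :
    ∃ δ > 0, ∃ r > 0, Metric.ball s₀ δ ⊆ χ₀.dom ∧
      ∀ s ∈ Metric.ball s₀ δ, ∀ s' ∈ Metric.ball s₀ δ, ∀ w : Fin (genusFF ℂ F) → ℂ, ‖w‖ < r →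
        Q.E (w + (χ₀.ab ω s - χ₀.ab ω s')) - Q.E w = cls (pt (χ₀.pl s) - pt (χ₀.pl s')) := by
  classical
  -- step 1: separate `pl₀` near `s₀` from the base charts near their centres
  have h1 : ∀ i, ∃ δ > 0, ∀ σ ∈ Metric.ball s₀ δ, ∀ σ' ∈ Metric.ball (Q.χ i).c δ,
      χ₀.pl σ ≠ (Q.χ i).pl σ' := fun i =>
    χ₀.eventually_ne (Q.χ i) hs₀ (Q.χ i).c_mem_dom (hne i)
  choose d hd Hd using h1
  obtain ⟨δ₁, hδ₁, hδ₁d⟩ := exists_pos_forall_lt_of_finite d hd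
  -- step 2: the open set `W`
  set W : Set (Fin (genusFF ℂ F) → ℂ) :=
    Q.V ∩ Set.pi Set.univ (fun i => Metric.ball (Q.χ i).c δ₁) with hWdef
  have hWV : W ⊆ Q.V := Set.inter_subset_left
  have hWo : IsOpen W :=
    Q.isOpen_V.inter (isOpen_set_pi Set.finite_univ fun i _ => Metric.isOpen_ball)
  have hcW : Q.c ∈ W := ⟨Q.c_mem, fun i _ => Metric.mem_ball_self hδ₁⟩
  obtain ⟨ρ, hρ, Hρ⟩ := Q.exists_ball W hWV hWo hcW
  -- step 3: continuity of the Abel map of `χ₀`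
  have hcont : ContinuousAt (χ₀.ab ω) s₀ :=
    (continuousOn_ab χ₀ ω).continuousAt (χ₀.isOpen_dom.mem_nhds hs₀)
  obtain ⟨δ₂, hδ₂, Hδ₂⟩ := Metric.continuousAt_iff.1 hcont (ρ / 4) (by positivity)
  obtain ⟨δ₃, hδ₃, Hδ₃⟩ := Metric.isOpen_iff.1 χ₀.isOpen_dom s₀ hs₀
  refine ⟨min δ₁ (min δ₂ δ₃), lt_min hδ₁ (lt_min hδ₂ hδ₃), ρ / 2, by positivity, ?_, ?_⟩
  · exact (Metric.ball_subset_ball ((min_le_right _ _).trans (min_le_right _ _))).trans Hδ₃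
  set B : Set ℂ := Metric.ball s₀ (min δ₁ (min δ₂ δ₃)) with hB
  have hBdom : B ⊆ χ₀.dom :=
    (Metric.ball_subset_ball ((min_le_right _ _).trans (min_le_right _ _))).trans Hδ₃
  have hB1 : B ⊆ Metric.ball s₀ δ₁ := Metric.ball_subset_ball (min_le_left _ _)
  have hB2 : ∀ s ∈ B, ‖χ₀.ab ω s - χ₀.ab ω s₀‖ < ρ / 4 := by
    intro s hs
    have h2 : dist s s₀ < δ₂ :=
      lt_of_lt_of_le (Metric.mem_ball.1 hs) ((min_le_right _ _).trans (min_le_left _ _))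
    have h3 := Hδ₂ h2
    rwa [dist_eq_norm] at h3
  have hdisj : ∀ s ∈ B, ∀ τ ∈ W, ∀ i, χ₀.pl s ≠ (Q.χ i).pl (τ i) := by
    intro s hs τ hτ i
    refine Hd i s ?_ (τ i) ?_
    · exact Metric.ball_subset_ball (hδ₁d i).le (hB1 hs)
    · exact Metric.ball_subset_ball (hδ₁d i).le (hτ.2 i (Set.mem_univ i))
  intro s hs s' hs' w hw
  set z : Fin (genusFF ℂ F) → ℂ := w + χ₀.ab ω s with hz
  have hzB : ∀ s'' ∈ B, ∃ τ ∈ W, abSum ω Q.χ τ = z - χ₀.ab ω s'' := by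
    intro s'' hs''
    apply Hρ
    have e : z - χ₀.ab ω s'' =
        w + (χ₀.ab ω s - χ₀.ab ω s₀) - (χ₀.ab ω s'' - χ₀.ab ω s₀) := by
      rw [hz]; abel
    rw [e]
    calc ‖w + (χ₀.ab ω s - χ₀.ab ω s₀) - (χ₀.ab ω s'' - χ₀.ab ω s₀)‖
        ≤ ‖w + (χ₀.ab ω s - χ₀.ab ω s₀)‖ + ‖χ₀.ab ω s'' - χ₀.ab ω s₀‖ := norm_sub_le _ _
      _ ≤ ‖w‖ + ‖χ₀.ab ω s - χ₀.ab ω s₀‖ + ‖χ₀.ab ω s'' - χ₀.ab ω s₀‖ := by
          gcongr; exact norm_add_le _ _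
      _ < ρ / 2 + ρ / 4 + ρ / 4 := by
          have a1 := hB2 s hs
          have a2 := hB2 s'' hs''
          linarith
      _ = ρ := by ring
  obtain ⟨τ, hτ, hτz⟩ := hzB s hs
  obtain ⟨τ', hτ', hτ'z⟩ := hzB s' hs'
  have hLL := LL Q W hWV hWo χ₀ B (convex_ball _ _).isPreconnected Metric.isOpen_ball hBdom hdisj z
    hzB hs hs' hτ hτ' hτz hτ'z
  have e1 : abSum ω Q.χ τ = w := by rw [hτz, hz]; abel
  have e2 : abSum ω Q.χ τ' = w + (χ₀.ab ω s - χ₀.ab ω s') := by rw [hτ'z, hz]; abel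
  rw [← e2, ← e1, Q.E_sub (hWV hτ) (hWV hτ')]
  have hdeg : Divisor.degree (dv Q.χ τ' - dv Q.χ τ) = 0 := by
    rw [map_sub, degree_dv, degree_dv, sub_self]
  rw [cls_eq_cls_iff hdeg (degree_pt_sub_pt _ _)]
  have h5 := hLL.symm
  rw [LinEq] at h5 ⊢
  have e3 : dv Q.χ τ' - dv Q.χ τ - (pt (χ₀.pl s) - pt (χ₀.pl s')) =
      pt (χ₀.pl s') + dv Q.χ τ' - (pt (χ₀.pl s) + dv Q.χ τ) := by abel
  rw [e3]
  exact h5

end Fermat.Agent.S27
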