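import Fermat.Agent.S27.D.MovingAn

/-! # S27 / D-M: the moving lemma (owner: helper264)

Let `f` have at most simple poles at the distinct places `pl_i τ_i`, no other poles, and a pole at `pl_{i₀} τ_{i₀}`.
Then the point `i₀` can be moved freely (near `τ_{i₀}`), the other points following, such that the divisor stays in
its linear equivalence class and all abelian sums stay constant.

PROOF.  `I = {i | f has a pole at pl_i τ_i} ∋ i₀`.  For `i ∈ I`, `φ_i σ = ev (pl_i σ) f⁻¹` is analytic near `τ_i`,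
`φ_i τ_i = 0`, `φ_i' τ_i ≠ 0` (`Chart.hasDerivAt_ev`: the derivative is the value of `f⁻¹/(t_i - τ_i)`, a unit).
Local inverse `σ_i ε` (`HasStrictDerivAt.localInverse`), `σ_i 0 = τ_i`; for `i ∉ I` put `σ_i ε = τ_i`.
(a) the zeros of `f⁻¹ - ε` are exactly the `#I` distinct (`Chart.eventually_ne`) places `pl_i (σ_i ε)`, `i ∈ I`, all
simple: its poles are those of `f⁻¹`, with the same orders, the sum of all orders is `0` for `f⁻¹ - ε` and for `f⁻¹`,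
and `f⁻¹` has exactly `#I` zeros, all simple.  So `div (1 - ε f) = div ((f⁻¹ - ε)/f⁻¹) = ∑ pt (pl σ_i ε) - ∑ pt (pl τ_i)`.
(b) `d/dε ∑_i prim_i lam (σ_i ε) = ∑_{i∈I} H_i lam (σ_i ε) σ_i'(ε) = ∑_i lam.loc (pl_i (σ_i ε)) h_ε = 0` by reciprocity
(`WDiff.sum_loc_eq_zero`) for `h_ε = (f⁻¹ - ε)⁻¹`, whose only poles are the `pl_i (σ_i ε)`, simple, with
`loc = ev (h_ε (t_i - σ_i)) * H_i = (φ_i'(σ_i))⁻¹ * H_i = σ_i'(ε) * H_i` (`WDiff.loc_simple_pole`, `hasDerivAt_ev`).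
So the sum is constant on a small ball of `ε`.
(c) given `s` near `τ_{i₀}` take `ε = φ_{i₀} s`; then `σ_{i₀} ε = s`. -/

set_option autoImplicit false

noncomputable section

namespace Fermat.Agent.S27

open AlgebraicCurve Fermat.Agent.S24.FF

variable {F : Type*} [Field F] [Algebra ℂ F] [IsFF1 ℂ F]

theorem moving_lemma {ι : Type} [Fintype ι] [DecidableEq ι] (χ : ι → Chart F) (τ : ι → ℂ)
    (hτ : ∀ i, τ i ∈ (χ i).dom) (hinj : Function.Injective fun i => (χ i).pl (τ i)) (f : F)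
    (hf : ∀ i, -1 ≤ ((χ i).pl (τ i)).ord f)
    (hreg : ∀ w : Place ℂ F, (∀ i, w ≠ (χ i).pl (τ i)) → 0 ≤ w.ord f) (i₀ : ι)
    (h0 : ((χ i₀).pl (τ i₀)).ord f = -1) (η : ℝ) (hη : 0 < η) :
    ∃ δ > 0, ∀ s ∈ Metric.ball (τ i₀) δ, ∃ σ : ι → ℂ, σ i₀ = s ∧
      (∀ i, σ i ∈ (χ i).dom ∧ dist (σ i) (τ i) < η) ∧
      LinEq (∑ i, pt ((χ i).pl (σ i))) (∑ i, pt ((χ i).pl (τ i))) ∧
      ∀ lam : WDiff ℂ F, ∑ i, (χ i).prim lam (σ i) = ∑ i, (χ i).prim lam (τ i) :=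
  moving_lemma_aux χ τ hτ hinj f hf hreg i₀ h0 η hη

end Fermat.Agent.S27
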