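import Fermat.Agent.S27.D.Defs
import Fermat.Agent.S27.FibBasic
import Fermat.Agent.S27.Cls

/-! # S27 / D-M (algebraic half of the moving lemma).  Owner: helper147.

* `fibre_move`: if `φ` has only simple zeros `w i` (`i ∈ I`) and `w' i` (`i ∈ I`) are distinct zeros of `φ - ε`,
  then these are all the zeros of `φ - ε`, they are simple, and `∑ pt (w' i) ~ ∑ pt (w i)`.
* `sum_loc_fibre`: reciprocity for `(φ - ε)⁻¹`.
* `Chart.loc_inv_sub`: the local component of `lam` at a simple zero of `φ - ε` on a chart, in terms of the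
  derivative of `σ ↦ φ (pl σ)`.
-/

set_option autoImplicit false

noncomputable section

namespace Fermat.Agent.S27

open AlgebraicCurve Fermat.Agent.S24.FF IntermediateField

section General

variable {K F : Type*} [Field K] [Field F] [Algebra K F] [IsAlgClosed K] [CharZero K] [IsFF1 K F]

omit [CharZero K] [IsFF1 K F] in
theorem transcendental_of_ord_ne_zero {φ : F} {v : Place K F} (h : v.ord φ ≠ 0) :
    Transcendental K φ := by
  rcases exists_const_or_transcendental (K := K) φ with ⟨c, rfl⟩ | hφ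
  · exact absurd (ord_algebraMap v c) h
  · exact hφ

omit [IsAlgClosed K] [CharZero K] [IsFF1 K F] in
theorem sum_pt_apply_of_forall_ne' {ι : Type*} (I : Finset ι) (v : ι → Place K F) {w : Place K F}
    (h : ∀ i ∈ I, v i ≠ w) : (∑ i ∈ I, pt (v i)) w = 0 := by
  rw [Finsupp.finsetSum_apply]
  exact Finset.sum_eq_zero fun i hi => pt_apply_of_ne (h i hi)

omit [IsAlgClosed K] [CharZero K] [IsFF1 K F] in
theorem sum_pt_apply_of_injOn {ι : Type*} (I : Finset ι) {v : ι → Place K F}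
    (hv : Set.InjOn v I) {i : ι} (hi : i ∈ I) : (∑ j ∈ I, pt (v j)) (v i) = 1 := by
  rw [Finsupp.finsetSum_apply, Finset.sum_eq_single i, pt_apply_self]
  · intro j hj hji
    exact pt_apply_of_ne fun h => hji (hv hj hi h)
  · intro h
    exact absurd hi h

omit [IsAlgClosed K] [CharZero K] [IsFF1 K F] in
/-- subtracting a constant does not change the poles -/
theorem ord_sub_const_of_neg {φ : F} {v : Place K F} (h : v.ord φ < 0) (ε : K) :
    v.ord (φ - algebraMap K F ε) = v.ord φ := by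
  rw [sub_eq_add_neg]
  apply ord_add_eq_of_lt v (ne_zero_of_ord_ne_zero v h.ne)
  rw [ord_neg, ord_algebraMap]
  exact h

omit [IsAlgClosed K] [CharZero K] [IsFF1 K F] in
theorem ord_sub_const_nonneg {φ : F} {v : Place K F} (h : 0 ≤ v.ord φ) (ε : K) :
    0 ≤ v.ord (φ - algebraMap K F ε) := by
  rcases eq_or_ne (φ - algebraMap K F ε) 0 with h0 | h0
  · rw [h0, v.ord_zero]
  · rw [sub_eq_add_neg] at h0 ⊢
    refine le_trans ?_ (min_ord_le_ord_add v h0)
    rw [ord_neg, ord_algebraMap]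
    exact le_min h le_rfl

/-- **moving a reduced fibre** -/
theorem fibre_move {ι : Type*} (I : Finset ι) (hI : I.Nonempty) (φ : F) (w w' : ι → Place K F)
    (hw : Set.InjOn w I) (hw' : Set.InjOn w' I)
    (hzero : ∀ v : Place K F, 0 < v.ord φ → ∃ i ∈ I, v = w i)
    (hsimple : ∀ i ∈ I, (w i).ord φ = 1) (ε : K)
    (hε : ∀ i ∈ I, 0 < (w' i).ord (φ - algebraMap K F ε)) :
    (∀ v : Place K F, 0 < v.ord (φ - algebraMap K F ε) → ∃ i ∈ I, v = w' i) ∧
    (∀ i ∈ I, (w' i).ord (φ - algebraMap K F ε) = 1) ∧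
    LinEq (∑ i ∈ I, pt (w' i)) (∑ i ∈ I, pt (w i)) := by
  classical
  obtain ⟨i₀, hi₀⟩ := hI
  have hφ : Transcendental K φ :=
    transcendental_of_ord_ne_zero (v := w i₀) (by rw [hsimple i₀ hi₀]; exact one_ne_zero)
  have hcard : (I.image w).card = Module.finrank K⟮φ⟯ F := by
    apply card_fibre_of_unramified φ hφ 0
    · intro v
      rw [map_zero, sub_zero, Finset.mem_image]
      constructor
      · rintro ⟨i, hi, rfl⟩
        rw [hsimple i hi]; exact one_pos
      · intro hv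
        obtain ⟨i, hi, rfl⟩ := hzero v hv
        exact ⟨i, hi, rfl⟩
    · intro v hv
      rw [Finset.mem_image] at hv
      obtain ⟨i, hi, rfl⟩ := hv
      rw [map_zero, sub_zero, hsimple i hi]
  have hcard' : (I.image w').card = Module.finrank K⟮φ⟯ F := by
    rw [← hcard, Finset.card_image_of_injOn hw, Finset.card_image_of_injOn hw']
  obtain ⟨hall, hone⟩ := fibre_eq_of_card φ hφ ε (I.image w') (by
    intro v hv
    rw [Finset.mem_image] at hv
    obtain ⟨i, hi, rfl⟩ := hv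
    exact hε i hi) hcard'
  have hall' : ∀ v : Place K F, 0 < v.ord (φ - algebraMap K F ε) → ∃ i ∈ I, v = w' i := by
    intro v hv
    obtain ⟨i, hi, h⟩ := Finset.mem_image.1 (hall v hv)
    exact ⟨i, hi, h.symm⟩
  have hone' : ∀ i ∈ I, (w' i).ord (φ - algebraMap K F ε) = 1 :=
    fun i hi => hone _ (Finset.mem_image_of_mem _ hi)
  refine ⟨hall', hone', ?_⟩
  have hφ0 : φ ≠ 0 := ne_zero_of_ord_ne_zero (w i₀) (by rw [hsimple i₀ hi₀]; exact one_ne_zero)
  have hφε : φ - algebraMap K F ε ≠ 0 :=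
    ne_zero_of_ord_ne_zero (w' i₀) (by rw [hone' i₀ hi₀]; exact one_ne_zero)
  rw [LinEq, mem_principal_iff]
  refine ⟨(φ - algebraMap K F ε) * φ⁻¹, mul_ne_zero hφε (inv_ne_zero hφ0), fun v => ?_⟩
  rw [v.ord_mul hφε (inv_ne_zero hφ0), v.ord_inv, Finsupp.sub_apply]
  have h1 : (∑ i ∈ I, pt (w i)) v = max (v.ord φ) 0 := by
    by_cases hv : 0 < v.ord φ
    · obtain ⟨i, hi, rfl⟩ := hzero v hv
      rw [sum_pt_apply_of_injOn I hw hi, hsimple i hi]; rfl
    · rw [sum_pt_apply_of_forall_ne' I w, max_eq_right (not_lt.1 hv)]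
      rintro i hi rfl
      exact hv (by rw [hsimple i hi]; exact one_pos)
  have h2 : (∑ i ∈ I, pt (w' i)) v = max (v.ord (φ - algebraMap K F ε)) 0 := by
    by_cases hv : 0 < v.ord (φ - algebraMap K F ε)
    · obtain ⟨i, hi, rfl⟩ := hall' v hv
      rw [sum_pt_apply_of_injOn I hw' hi, hone' i hi]; rfl
    · rw [sum_pt_apply_of_forall_ne' I w', max_eq_right (not_lt.1 hv)]
      rintro i hi rfl
      exact hv (hε i hi)
  rw [h1, h2]
  rcases lt_or_ge (v.ord φ) 0 with h | h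
  · rw [ord_sub_const_of_neg h ε, max_eq_right h.le]
    omega
  · rw [max_eq_left h, max_eq_left (ord_sub_const_nonneg h ε)]
    omega

/-- reciprocity for the inverse of a function whose zeros are the `w' i` -/
theorem sum_loc_fibre {ι : Type*} (I : Finset ι) (ψ : F) (w' : ι → Place K F)
    (hw' : Set.InjOn w' I) (hall : ∀ v : Place K F, 0 < v.ord ψ → ∃ i ∈ I, v = w' i)
    (lam : WDiff K F) : ∑ i ∈ I, lam.loc (w' i) ψ⁻¹ = 0 := by
  classical
  have := lam.sum_loc_eq_zero ψ⁻¹ (I.image w') (by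
    intro v hv
    rw [v.ord_inv]
    by_contra hlt
    obtain ⟨i, hi, rfl⟩ := hall v (by omega)
    exact hv (Finset.mem_image_of_mem _ hi))
  rwa [Finset.sum_image hw'] at this

end General

section Complex

variable {F : Type*} [Field F] [Algebra ℂ F] [IsFF1 ℂ F]

/-- the local component of `lam` at a simple zero of `φ - ε` lying on a chart -/
theorem Chart.loc_inv_sub (χ : Chart F) (lam : WDiff ℂ F) {φ : F} {σ ε : ℂ} (hσ : σ ∈ χ.dom)
    (h1 : (χ.pl σ).ord (φ - algebraMap ℂ F ε) = 1) :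
    0 ≤ (χ.pl σ).ord φ ∧ ev (χ.pl σ) φ = ε ∧
    ∃ d : ℂ, d ≠ 0 ∧ HasDerivAt (fun s => ev (χ.pl s) φ) d σ ∧
      lam.loc (χ.pl σ) (φ - algebraMap ℂ F ε)⁻¹ = d⁻¹ * χ.H lam σ := by
  set v := χ.pl σ with hv
  set u : F := χ.t - algebraMap ℂ F σ with hu
  set ψ : F := φ - algebraMap ℂ F ε with hψ
  have hu1 : v.ord u = 1 := χ.ord_t σ hσ
  have hu0 : u ≠ 0 := χ.t_sub_ne_zero hσ
  have hψ0 : ψ ≠ 0 := ne_zero_of_ord_ne_zero v (by rw [h1]; exact one_ne_zero)
  have hval : IsVal v φ ε := Or.inr (by rw [← hψ, h1]; exact one_pos)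
  have hreg : 0 ≤ v.ord φ := hval.ord_nonneg
  have hev : ev v φ = ε := ev_eq_of_isVal hval
  refine ⟨hreg, hev, ev v (ψ * u⁻¹), ?_, ?_, ?_⟩
  · apply ev_ne_zero_of_ord_eq_zero (mul_ne_zero hψ0 (inv_ne_zero hu0))
    rw [v.ord_mul hψ0 (inv_ne_zero hu0), v.ord_inv, h1, hu1]; rfl
  · have := χ.hasDerivAt_ev hσ hreg
    rwa [← hv, hev] at this
  · rw [lam.loc_simple_pole hu1 (by rw [v.ord_inv, h1]), Chart.H, ← hu, ← hv]
    congr 1
    rw [← ev_inv (mul_ne_zero hψ0 (inv_ne_zero hu0))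
      (by rw [v.ord_mul hψ0 (inv_ne_zero hu0), v.ord_inv, h1, hu1]; rfl)]
    congr 1
    field_simp

end Complex

end Fermat.Agent.S27
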