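import Fermat.Agent.S27.D.MovingAlg

/-! # S27 / D-M (analytic half of the moving lemma).  Owner: helper147.

* `exists_local_inverse`: the local inverse of an analytic function with non-zero derivative, with its derivative at
  all nearby points.
* `moving_lemma_aux`: the statement of `moving_lemma`.
-/

set_option autoImplicit false

noncomputable section

namespace Fermat.Agent.S27

open AlgebraicCurve Fermat.Agent.S24.FF Filter Topology

theorem exists_local_inverse {ψ : ℂ → ℂ} {τ : ℂ} (hψ : AnalyticAt ℂ ψ τ) (hd : deriv ψ τ ≠ 0) :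
    ∃ σ : ℂ → ℂ, σ (ψ τ) = τ ∧ (∀ᶠ s in 𝓝 τ, σ (ψ s) = s) ∧ ContinuousAt σ (ψ τ) ∧
      ∀ᶠ ε in 𝓝 (ψ τ), ψ (σ ε) = ε ∧ HasDerivAt σ (deriv ψ (σ ε))⁻¹ ε := by
  have hstrict := (hψ.hasStrictDerivAt).hasStrictFDerivAt_equiv hd
  set e := hstrict.toOpenPartialHomeomorph ψ with he
  have hcoe : (e : ℂ → ℂ) = ψ := hstrict.toOpenPartialHomeomorph_coe
  have hsrc : τ ∈ e.source := hstrict.mem_toOpenPartialHomeomorph_source
  have htgt : ψ τ ∈ e.target := hstrict.image_mem_toOpenPartialHomeomorph_target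
  have hστ : e.symm (ψ τ) = τ := by
    have := e.left_inv hsrc
    rwa [hcoe] at this
  have hcont : ContinuousAt e.symm (ψ τ) := e.continuousAt_symm htgt
  refine ⟨e.symm, hστ, ?_, hcont, ?_⟩
  · filter_upwards [e.open_source.mem_nhds hsrc] with s hs
    have := e.left_inv hs
    rwa [hcoe] at this
  · have h1 : ∀ᶠ s in 𝓝 τ, AnalyticAt ℂ ψ s ∧ deriv ψ s ≠ 0 :=
      hψ.eventually_analyticAt.and (hψ.deriv.continuousAt.eventually_ne hd)
    have h2 : ∀ᶠ ε in 𝓝 (ψ τ), AnalyticAt ℂ ψ (e.symm ε) ∧ deriv ψ (e.symm ε) ≠ 0 := by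
      have : Tendsto e.symm (𝓝 (ψ τ)) (𝓝 τ) := by
        have := hcont.tendsto
        rwa [hστ] at this
      exact this.eventually h1
    filter_upwards [h2, e.open_target.mem_nhds htgt] with ε hε hεt
    have hright : ∀ y ∈ e.target, ψ (e.symm y) = y := by
      intro y hy
      have := e.right_inv hy
      rwa [hcoe] at this
    refine ⟨hright ε hεt, ?_⟩
    refine HasDerivAt.of_local_left_inverse (e.continuousAt_symm hεt)
      hε.1.differentiableAt.hasDerivAt hε.2 ?_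
    filter_upwards [e.open_target.mem_nhds hεt] with y hy using hright y hy

variable {F : Type*} [Field F] [Algebra ℂ F] [IsFF1 ℂ F]

theorem moving_lemma_aux {ι : Type} [Fintype ι] [DecidableEq ι] (χ : ι → Chart F) (τ : ι → ℂ)
    (hτ : ∀ i, τ i ∈ (χ i).dom) (hinj : Function.Injective fun i => (χ i).pl (τ i)) (f : F)
    (hf : ∀ i, -1 ≤ ((χ i).pl (τ i)).ord f)
    (hreg : ∀ w : Place ℂ F, (∀ i, w ≠ (χ i).pl (τ i)) → 0 ≤ w.ord f) (i₀ : ι)
    (h0 : ((χ i₀).pl (τ i₀)).ord f = -1) (η : ℝ) (hη : 0 < η) :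
    ∃ δ > 0, ∀ s ∈ Metric.ball (τ i₀) δ, ∃ σ : ι → ℂ, σ i₀ = s ∧
      (∀ i, σ i ∈ (χ i).dom ∧ dist (σ i) (τ i) < η) ∧
      LinEq (∑ i, pt ((χ i).pl (σ i))) (∑ i, pt ((χ i).pl (τ i))) ∧
      ∀ lam : WDiff ℂ F, ∑ i, (χ i).prim lam (σ i) = ∑ i, (χ i).prim lam (τ i) := by
  classical
  set I : Finset ι := Finset.univ.filter fun i => ((χ i).pl (τ i)).ord f = -1 with hI
  have hi₀ : i₀ ∈ I := Finset.mem_filter.2 ⟨Finset.mem_univ _, h0⟩
  set φ : F := f⁻¹ with hφ
  set w : ι → Place ℂ F := fun i => (χ i).pl (τ i) with hw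
  have hsimple : ∀ i ∈ I, (w i).ord φ = 1 := by
    intro i hi
    have : (w i).ord f = -1 := (Finset.mem_filter.1 hi).2
    rw [hφ, (w i).ord_inv, this]; rfl
  have hzero : ∀ v : Place ℂ F, 0 < v.ord φ → ∃ i ∈ I, v = w i := by
    intro v hv
    rw [hφ, v.ord_inv] at hv
    by_cases hex : ∃ i, v = w i
    · obtain ⟨i, rfl⟩ := hex
      have h1 : -1 ≤ (w i).ord f := hf i
      exact ⟨i, Finset.mem_filter.2 ⟨Finset.mem_univ _, by
        show (w i).ord f = -1
        omega⟩, rfl⟩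
    · push Not at hex
      have := hreg v hex
      omega
  have hφtr : Transcendental ℂ φ :=
    transcendental_of_ord_ne_zero (v := w i₀) (by rw [hsimple i₀ hi₀]; exact one_ne_zero)
  set ψ : ι → ℂ → ℂ := fun i s => ev ((χ i).pl s) φ with hψ
  have hloc : ∀ i ∈ I, AnalyticAt ℂ (ψ i) (τ i) ∧ ψ i (τ i) = 0 ∧ deriv (ψ i) (τ i) ≠ 0 := by
    intro i hi
    have h1 : ((χ i).pl (τ i)).ord (φ - algebraMap ℂ F 0) = 1 := by
      rw [map_zero, sub_zero]; exact hsimple i hi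
    obtain ⟨hreg', hev, d, hd, hder, -⟩ := (χ i).loc_inv_sub (0 : WDiff ℂ F) (hτ i) h1
    exact ⟨(χ i).analytic_ev φ (τ i) (hτ i) hreg', hev, by rw [hder.deriv]; exact hd⟩
  have hex : ∀ i, ∃ σ : ℂ → ℂ, σ 0 = τ i ∧ ContinuousAt σ 0 ∧
      (i ∈ I → (∀ᶠ s in 𝓝 (τ i), σ (ψ i s) = s) ∧
        ∀ᶠ ε in 𝓝 (0 : ℂ), ψ i (σ ε) = ε ∧ HasDerivAt σ (deriv (ψ i) (σ ε))⁻¹ ε) ∧
      (i ∉ I → σ = fun _ => τ i) := by
    intro i
    by_cases hi : i ∈ I
    · obtain ⟨ha, hz, hd⟩ := hloc i hi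
      obtain ⟨σ, h1, h2, h3, h4⟩ := exists_local_inverse ha hd
      rw [hz] at h1 h3 h4
      exact ⟨σ, h1, h3, fun _ => ⟨h2, h4⟩, fun h => absurd hi h⟩
    · exact ⟨fun _ => τ i, rfl, continuousAt_const, fun h => absurd h hi, fun _ => rfl⟩
  choose S hS0 hScont hSI hSnI using hex
  have hT : ∀ i, Tendsto (S i) (𝓝 0) (𝓝 (τ i)) := by
    intro i
    have := (hScont i).tendsto
    rwa [hS0 i] at this
  have hE : ∀ᶠ ε in 𝓝 (0 : ℂ),
      (∀ i, S i ε ∈ (χ i).dom ∧ dist (S i ε) (τ i) < η) ∧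
      (∀ i ∈ I, ψ i (S i ε) = ε ∧ HasDerivAt (S i) (deriv (ψ i) (S i ε))⁻¹ ε) ∧
      (∀ i ∈ I, 0 ≤ ((χ i).pl (S i ε)).ord φ) ∧
      (∀ i j, i ≠ j → (χ i).pl (S i ε) ≠ (χ j).pl (S j ε)) := by
    refine Filter.Eventually.and ?_ (Filter.Eventually.and ?_ (Filter.Eventually.and ?_ ?_))
    · rw [Filter.eventually_all]
      intro i
      exact (hT i).eventually (Filter.Eventually.and ((χ i).isOpen_dom.mem_nhds (hτ i))
        (Metric.ball_mem_nhds _ hη))
    · rw [Filter.eventually_all_finset]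
      intro i hi
      exact (hSI i hi).2
    · rw [Filter.eventually_all_finset]
      intro i hi
      exact (hT i).eventually ((χ i).eventually_ord_nonneg (hτ i)
        (by
          have : ((χ i).pl (τ i)).ord φ = 1 := hsimple i hi
          rw [this]; exact zero_le_one))
    · rw [Filter.eventually_all]
      intro i
      rw [Filter.eventually_all]
      intro j
      by_cases hij : i = j
      · exact Filter.Eventually.of_forall fun _ h => absurd hij h
      · obtain ⟨δ, hδ, hne⟩ := (χ i).eventually_ne (χ j) (hτ i) (hτ j) (fun h => hij (hinj h))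
        filter_upwards [(hT i).eventually (Metric.ball_mem_nhds _ hδ),
          (hT j).eventually (Metric.ball_mem_nhds _ hδ)] with ε h1 h2 _
        exact hne _ h1 _ h2
  obtain ⟨ρ, hρ, hball⟩ := Metric.eventually_nhds_iff_ball.1 hE
  -- the algebraic consequences
  have key : ∀ ε ∈ Metric.ball (0 : ℂ) ρ,
      LinEq (∑ i, pt ((χ i).pl (S i ε))) (∑ i, pt ((χ i).pl (τ i))) ∧
      ∀ lam : WDiff ℂ F, ∑ i ∈ I, (χ i).H lam (S i ε) * (deriv (ψ i) (S i ε))⁻¹ = 0 := by
    intro ε hε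
    obtain ⟨hdom, hinv, hord, hne⟩ := hball ε hε
    set w' : ι → Place ℂ F := fun i => (χ i).pl (S i ε) with hw'
    have hw'inj : Set.InjOn w' I := by
      intro i _ j _ hij
      by_contra hcon
      exact hne i j hcon hij
    have hpos : ∀ i ∈ I, 0 < (w' i).ord (φ - algebraMap ℂ F ε) := by
      intro i hi
      have h1 : IsVal (w' i) φ (ev (w' i) φ) := isVal_ev (hord i hi)
      have h2 : ev (w' i) φ = ε := (hinv i hi).1
      rw [h2] at h1
      rcases h1 with h1 | h1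
      · exact absurd (h1 ▸ isAlgebraic_algebraMap (A := F) ε) hφtr
      · exact h1
    obtain ⟨hall, hone, hlin⟩ := fibre_move I ⟨i₀, hi₀⟩ φ w w' hinj.injOn hw'inj hzero hsimple ε hpos
    constructor
    · rw [← Finset.sum_add_sum_compl I, ← Finset.sum_add_sum_compl I (fun i => pt ((χ i).pl (τ i)))]
      refine hlin.add ?_
      rw [Finset.sum_congr rfl (g := fun i => pt ((χ i).pl (τ i)))]
      · exact LinEq.refl _
      · intro i hi
        rw [hSnI i (Finset.mem_compl.1 hi)]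
    · intro lam
      rw [← sum_loc_fibre I (φ - algebraMap ℂ F ε) w' hw'inj hall lam]
      refine Finset.sum_congr rfl fun i hi => ?_
      obtain ⟨-, -, d, -, hder, hloc'⟩ := (χ i).loc_inv_sub lam (hdom i).1 (hone i hi)
      rw [hloc', mul_comm]
      congr 2
      exact hder.deriv
  -- the abelian sums are constant
  have hconst : ∀ lam : WDiff ℂ F, ∀ ε ∈ Metric.ball (0 : ℂ) ρ,
      ∑ i, (χ i).prim lam (S i ε) = ∑ i, (χ i).prim lam (τ i) := by
    intro lam ε hε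
    have hder : ∀ ε ∈ Metric.ball (0 : ℂ) ρ,
        HasDerivAt (fun ε => ∑ i, (χ i).prim lam (S i ε)) 0 ε := by
      intro ε hε
      obtain ⟨hdom, hinv, -, -⟩ := hball ε hε
      have h1 : ∀ i ∈ Finset.univ, HasDerivAt (fun ε => (χ i).prim lam (S i ε))
          (if i ∈ I then (χ i).H lam (S i ε) * (deriv (ψ i) (S i ε))⁻¹ else 0) ε := by
        intro i _
        by_cases hi : i ∈ I
        · rw [if_pos hi]
          exact ((χ i).hasDerivAt_prim lam (hdom i).1).comp ε (hinv i hi).2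
        · rw [if_neg hi, hSnI i hi]
          exact hasDerivAt_const _ _
      have h2 := HasDerivAt.fun_sum h1
      rwa [Finset.sum_ite_mem, Finset.univ_inter, (key ε hε).2 lam] at h2
    have := IsOpen.is_const_of_deriv_eq_zero (𝕜 := ℂ) Metric.isOpen_ball
      (convex_ball (0 : ℂ) ρ).isPreconnected
      (fun x hx => (hder x hx).differentiableAt.differentiableWithinAt)
      (fun x hx => (hder x hx).deriv) hε (Metric.mem_ball_self hρ)
    rw [this]
    exact Finset.sum_congr rfl fun i _ => by rw [hS0 i]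
  -- choose `δ`
  obtain ⟨ha, hz, -⟩ := hloc i₀ hi₀
  have hfin : ∀ᶠ s in 𝓝 (τ i₀), S i₀ (ψ i₀ s) = s ∧ ψ i₀ s ∈ Metric.ball (0 : ℂ) ρ := by
    refine (hSI i₀ hi₀).1.and ?_
    have : Tendsto (ψ i₀) (𝓝 (τ i₀)) (𝓝 0) := by
      have := ha.continuousAt.tendsto
      rwa [hz] at this
    exact this.eventually (Metric.ball_mem_nhds _ hρ)
  obtain ⟨δ, hδ, hδball⟩ := Metric.eventually_nhds_iff_ball.1 hfin
  refine ⟨δ, hδ, fun s hs => ?_⟩
  obtain ⟨h1, h2⟩ := hδball s hs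
  exact ⟨fun i => S i (ψ i₀ s), h1, (hball _ h2).1, (key _ h2).1, fun lam => hconst lam _ h2⟩

end Fermat.Agent.S27
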